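/-
S36, block L0: re-export (see `S36/Mod/L0/Basic.lean`).  `chart₁ D`, `chart₂ D` (no `BaseHyp` needed) are in
`BAD/LevelQ/Mod/SetupL0.lean`.
-/
import Fermat.Agent.BAD.LevelQ.Mod.SetupL0
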