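/-
S36, block L0: re-export.  The eight statements `transc₀ unifw const₀ x_unit₀ chart₁ chart₂ finite_a
finite_b` (ns `Fermat.Agent.S36.Mod.Setup`) live in `BAD/LevelQ/Mod/SetupL0.lean` (helper7, landed two
minutes before my copy); this file only imports it, so that no name is declared twice.
-/
import Fermat.Agent.BAD.LevelQ.Mod.SetupL0
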